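import Fermat.Agent.FrobDensity.Reduction

/-!
# The number of ideals of prime norm equals the number of embeddings fixed by Frobenius
-/

set_option autoImplicit false
set_option linter.style.haveILetI false
set_option linter.unusedSectionVars false

namespace Fermat.Agent.FrobDensity

open NumberField IsLocalRing

section counting

variable (F : Type*) [Field F] [NumberField F]

theorem ringHom_zmod_eq_of_ker_le {R : Type*} [CommRing R] {q : ℕ} {f g : R →+* ZMod q}
    (h : RingHom.ker f ≤ RingHom.ker g) : f = g := by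
  ext x
  obtain ⟨n, hn⟩ := ZMod.intCast_surjective (f x)
  have h1 : x - (n : R) ∈ RingHom.ker f := by
    rw [RingHom.mem_ker, map_sub, map_intCast, hn, sub_self]
  have h2 := h h1
  rw [RingHom.mem_ker, map_sub, map_intCast, sub_eq_zero] at h2
  rw [← hn, h2]

theorem idealCount_eq_card_hom {q : ℕ} (hq : q.Prime) :
    idealCount F q = Nat.card (𝓞 F →+* ZMod q) := by
  classical
  haveI : Fact q.Prime := ⟨hq⟩
  symm
  have hnorm : ∀ f : 𝓞 F →+* ZMod q, Ideal.absNorm (RingHom.ker f) = q := by
    intro f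
    rw [Ideal.absNorm_apply, Submodule.cardQuot_apply]
    have e : (𝓞 F ⧸ RingHom.ker f) ≃+* ZMod q :=
      RingHom.quotientKerEquivOfSurjective (ZMod.ringHom_surjective f)
    rw [Nat.card_congr e.toEquiv, Nat.card_zmod]
  apply Nat.card_congr
  refine Equiv.ofBijective (fun f => ⟨RingHom.ker f, hnorm f⟩) ⟨?_, ?_⟩
  · intro f g h
    exact ringHom_zmod_eq_of_ker_le (le_of_eq (congrArg Subtype.val h))
  · rintro ⟨I, hI⟩
    have hcard : Nat.card (𝓞 F ⧸ I) = q := by
      rw [← hI, Ideal.absNorm_apply, Submodule.cardQuot_apply]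
    haveI : Finite (𝓞 F ⧸ I) := Nat.finite_of_card_ne_zero (hcard ▸ hq.ne_zero)
    haveI := Fintype.ofFinite (𝓞 F ⧸ I)
    have hcard' : Fintype.card (𝓞 F ⧸ I) = q := by rw [← Nat.card_eq_fintype_card, hcard]
    let e : ZMod q ≃+* (𝓞 F ⧸ I) := ZMod.ringEquivOfPrime (𝓞 F ⧸ I) hq hcard'
    refine ⟨(e.symm : (𝓞 F ⧸ I) →+* ZMod q).comp (Ideal.Quotient.mk I), ?_⟩
    apply Subtype.ext
    show RingHom.ker ((e.symm : (𝓞 F ⧸ I) →+* ZMod q).comp (Ideal.Quotient.mk I)) = I
    ext x
    rw [RingHom.mem_ker, RingHom.comp_apply]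
    constructor
    · intro h
      have h2 : (Ideal.Quotient.mk I) x = 0 := by
        have := congrArg e h
        simpa using this
      exact Ideal.Quotient.eq_zero_iff_mem.mp h2
    · intro h
      rw [Ideal.Quotient.eq_zero_iff_mem.mpr h, map_zero]

theorem exists_zmod_of_pow_eq {k : Type*} [Field k] {q : ℕ} [Fact q.Prime] [CharP k q] {x : k}
    (hx : x ^ q = x) : ∃ y : ZMod q, ZMod.castHom dvd_rfl k y = x := by
  classical
  have hinj : Function.Injective (ZMod.castHom (dvd_refl q) k) := RingHom.injective _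
  let P : Polynomial k := Polynomial.X ^ q - Polynomial.X
  have hP0 : P ≠ 0 := by
    intro h
    have := FiniteField.X_pow_card_sub_X_natDegree_eq k (Fact.out (p := q.Prime)).one_lt
    rw [show (Polynomial.X ^ q - Polynomial.X : Polynomial k) = 0 from h] at this
    simp at this
    exact (Fact.out (p := q.Prime)).ne_zero this.symm
  have hdeg : P.natDegree = q :=
    FiniteField.X_pow_card_sub_X_natDegree_eq k (Fact.out (p := q.Prime)).one_lt
  let S : Finset k := Finset.univ.image (ZMod.castHom (dvd_refl q) k)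
  have hS : S ⊆ P.roots.toFinset := by
    intro y hy
    obtain ⟨z, -, rfl⟩ := Finset.mem_image.mp hy
    rw [Multiset.mem_toFinset, Polynomial.mem_roots hP0, Polynomial.IsRoot.def]
    simp only [P, Polynomial.eval_sub, Polynomial.eval_pow, Polynomial.eval_X]
    rw [← map_pow, ZMod.pow_card, sub_self]
  have hScard : S.card = q := by
    rw [Finset.card_image_of_injective _ hinj, Finset.card_univ, ZMod.card]
  have hle : P.roots.toFinset.card ≤ S.card := by
    rw [hScard, ← hdeg]
    exact (Multiset.toFinset_card_le _).trans (Polynomial.card_roots' P)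
  have heq := Finset.eq_of_subset_of_card_le hS hle
  have hxP : x ∈ P.roots.toFinset := by
    rw [Multiset.mem_toFinset, Polynomial.mem_roots hP0, Polynomial.IsRoot.def]
    simp only [P, Polynomial.eval_sub, Polynomial.eval_pow, Polynomial.eval_X]
    rw [hx, sub_self]
  rw [← heq] at hxP
  obtain ⟨y, -, hy⟩ := Finset.mem_image.mp hxP
  exact ⟨y, hy⟩

theorem card_hom_zmod_eq {R : Type*} [CommRing R] {k : Type*} [Field k] {q : ℕ} [Fact q.Prime]
    [CharP k q] :
    Nat.card (R →+* ZMod q) = Nat.card {ψ : R →+* k // ∀ x, ψ x ^ q = ψ x} := by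
  have hinj : Function.Injective (ZMod.castHom (dvd_refl q) k) := RingHom.injective _
  apply Nat.card_congr
  refine Equiv.ofBijective (fun f => ⟨(ZMod.castHom (dvd_refl q) k).comp f, ?_⟩) ⟨?_, ?_⟩
  · intro x
    rw [RingHom.comp_apply, ← map_pow, ZMod.pow_card]
  · intro f g h
    ext x
    have := congrArg (fun ψ : {ψ : R →+* k // ∀ x, ψ x ^ q = ψ x} => ψ.1 x) h
    exact hinj this
  · rintro ⟨ψ, hψ⟩
    have hex : ∀ x, ∃ y : ZMod q, ZMod.castHom dvd_rfl k y = ψ x := fun x =>
      exists_zmod_of_pow_eq (hψ x)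
    choose f hf using hex
    refine ⟨{ toFun := f, map_one' := hinj ?_, map_mul' := fun x y => hinj ?_,
              map_zero' := hinj ?_, map_add' := fun x y => hinj ?_ }, ?_⟩
    · rw [hf, map_one, map_one]
    · rw [hf, map_mul, map_mul, hf, hf]
    · rw [hf, map_zero, map_zero]
    · rw [hf, map_add, map_add, hf, hf]
    · apply Subtype.ext
      ext x
      exact hf x

end counting

section main

variable (F : Type*) [Field F] [NumberField F]

local notation "Qbar" => AlgebraicClosure ℚ

theorem card_embeddings : Nat.card (F →+* Qbar) = Module.finrank ℚ F := by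
  rw [← AlgHom.card ℚ F Qbar, ← Nat.card_eq_fintype_card]
  exact Nat.card_congr (RingHom.equivRatAlgHom F Qbar)

/-- For all but finitely many primes `q`, for every place `A` above `q` and every Frobenius element
`σ` at `A`, the number of ideals of norm `q` is the number of embeddings fixed by `σ`. -/
theorem exists_idealCount_eq :
    ∃ D : ℤ, D ≠ 0 ∧ ∀ (q : ℕ), q.Prime → ¬ (q : ℤ) ∣ D →
      ∀ A : ValuationSubring Qbar, A.LiesOverPrime q →
        ∀ σ : Qbar ≃ₐ[ℚ] Qbar, A.IsFrobeniusAt σ q →
          idealCount F q = Nat.card {φ : F →+* Qbar // ((σ : Qbar →+* Qbar).comp φ) = φ} := by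
  obtain ⟨D, hD0, hD⟩ := exists_redHom_injective F Qbar
  refine ⟨D, hD0, fun q hq hqD A hA σ hσ => ?_⟩
  haveI : Fact q.Prime := ⟨hq⟩
  haveI := charP_residue hq hA
  have hinj := hD q hq hqD A hA
  obtain ⟨hfin, hle⟩ := card_ringHom_le F (ResidueField A)
  haveI : Finite (F →+* Qbar) := Finite.of_injective _ hinj
  have hbij : Function.Bijective (fun φ : F →+* Qbar => redHom A φ) := by
    haveI := Fintype.ofFinite (F →+* Qbar)
    haveI := Fintype.ofFinite (𝓞 F →+* ResidueField A)
    rw [Fintype.bijective_iff_injective_and_card]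
    refine ⟨hinj, le_antisymm (Fintype.card_le_of_injective _ hinj) ?_⟩
    rw [← Nat.card_eq_fintype_card, ← Nat.card_eq_fintype_card, card_embeddings]
    exact hle
  have hfrob : ∀ (φ : F →+* Qbar) (x : 𝓞 F),
      redHom A ((σ : Qbar →+* Qbar).comp φ) x = redHom A φ x ^ q := by
    intro φ x
    obtain ⟨hσD, hσ2⟩ := hσ
    have hmem : φ (x : F) ∈ A :=
      mem_of_isIntegral_int A (map_isIntegral_int φ (RingOfIntegers.isIntegral_coe x))
    have := hσ2 (redHom A φ x)
    rw [← this]
    rfl
  rw [idealCount_eq_card_hom F hq, card_hom_zmod_eq (k := ResidueField A)]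
  symm
  apply Nat.card_congr
  let e := Equiv.ofBijective _ hbij
  refine e.subtypeEquiv ?_
  intro φ
  constructor
  · intro h x
    show redHom A φ x ^ q = redHom A φ x
    rw [← hfrob, h]
  · intro h
    apply hinj
    ext x
    show redHom A ((σ : Qbar →+* Qbar).comp φ) x = redHom A φ x
    rw [hfrob]
    exact h x

end main

end Fermat.Agent.FrobDensity
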