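import Mathlib

/-!
# Möbius inversion over the subgroups of a cyclic group
-/

set_option autoImplicit false
set_option linter.style.haveILetI false
set_option linter.unusedSectionVars false

namespace Fermat.Agent.FrobDensity

open ArithmeticFunction

theorem sum_divisors_moebius (m : ℕ) :
    ∑ d ∈ m.divisors, (moebius d : ℤ) = if m = 1 then 1 else 0 := by
  have h := congrArg (fun f : ArithmeticFunction ℤ => f m) coe_zeta_mul_moebius
  simp only [coe_zeta_mul_apply, one_apply] at h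
  exact h

theorem sum_moebius_dvd (n k : ℕ) (hn : n ≠ 0) :
    ∑ d ∈ n.divisors, (moebius d : ℤ) * (if d ∣ k then 1 else 0) =
      if n.gcd k = 1 then 1 else 0 := by
  rw [← sum_divisors_moebius (n.gcd k)]
  simp only [mul_ite, mul_one, mul_zero]
  rw [← Finset.sum_filter]
  apply Finset.sum_congr _ (fun _ _ => rfl)
  ext d
  simp only [Finset.mem_filter, Nat.mem_divisors, ne_eq]
  constructor
  · rintro ⟨⟨h1, h2⟩, h3⟩
    exact ⟨Nat.dvd_gcd h1 h3, Nat.gcd_ne_zero_left hn⟩
  · rintro ⟨h1, h2⟩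
    exact ⟨⟨h1.trans (Nat.gcd_dvd_left n k), hn⟩, h1.trans (Nat.gcd_dvd_right n k)⟩

variable {G : Type*} [Group G] [Finite G]

theorem pow_mem_zpowers_pow_iff (τ : G) {d : ℕ} (hd : d ∣ orderOf τ) (k : ℕ) :
    τ ^ k ∈ Subgroup.zpowers (τ ^ d) ↔ d ∣ k := by
  constructor
  · intro h
    obtain ⟨j, hj⟩ := Subgroup.mem_zpowers_iff.mp h
    have h1 : τ ^ ((d : ℤ) * j) = τ ^ (k : ℤ) := by
      rw [zpow_mul, zpow_natCast, hj, zpow_natCast]
    have h2 := (zpow_eq_zpow_iff_modEq (x := τ)).mp h1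
    have h3 : (d : ℤ) ∣ (k : ℤ) - (d : ℤ) * j := by
      have : ((orderOf τ : ℕ) : ℤ) ∣ (k : ℤ) - (d : ℤ) * j := h2.dvd
      exact (Int.natCast_dvd_natCast.mpr hd).trans this
    have h4 : (d : ℤ) ∣ (k : ℤ) := by
      have := dvd_add h3 (dvd_mul_right (d : ℤ) j)
      simpa using this
    exact_mod_cast h4
  · rintro ⟨j, rfl⟩
    rw [pow_mul]
    exact Subgroup.mem_zpowers_iff.mpr ⟨j, by simp⟩

theorem zpowers_pow_eq_iff (τ : G) (k : ℕ) :
    Subgroup.zpowers (τ ^ k) = Subgroup.zpowers τ ↔ (orderOf τ).gcd k = 1 := by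
  have hpos : 0 < orderOf τ := orderOf_pos τ
  have hle : Subgroup.zpowers (τ ^ k) ≤ Subgroup.zpowers τ := by
    rw [Subgroup.zpowers_le]
    exact Subgroup.mem_zpowers_iff.mpr ⟨k, by simp⟩
  constructor
  · intro h
    have h1 : orderOf (τ ^ k) = orderOf τ := by
      rw [← Nat.card_zpowers, h, Nat.card_zpowers]
    rw [orderOf_pow] at h1
    have h2 := Nat.div_mul_cancel (Nat.gcd_dvd_left (orderOf τ) k)
    rw [h1] at h2
    exact Nat.eq_of_mul_eq_mul_left hpos (by rw [h2, mul_one])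
  · intro h
    apply Subgroup.eq_of_le_of_card_ge hle
    rw [Nat.card_zpowers, Nat.card_zpowers, orderOf_pow, h, Nat.div_one]

open scoped Classical in
theorem sum_moebius_indicator (τ x : G) :
    ∑ d ∈ (orderOf τ).divisors, (moebius d : ℤ) *
      (if x ∈ Subgroup.zpowers (τ ^ d) then 1 else 0) =
      if Subgroup.zpowers x = Subgroup.zpowers τ then 1 else 0 := by
  by_cases hx : x ∈ Subgroup.zpowers τ
  · obtain ⟨k, hk⟩ := (mem_powers_iff_mem_zpowers.mpr hx)
    simp only at hk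
    subst hk
    rw [if_congr (zpowers_pow_eq_iff τ k) rfl rfl,
      ← sum_moebius_dvd (orderOf τ) k (orderOf_pos τ).ne']
    apply Finset.sum_congr rfl
    intro d hd
    rw [if_congr (pow_mem_zpowers_pow_iff τ (Nat.dvd_of_mem_divisors hd) k) rfl rfl]
  · rw [if_neg]
    · apply Finset.sum_eq_zero
      intro d _
      rw [if_neg, mul_zero]
      intro h
      apply hx
      have hle : Subgroup.zpowers (τ ^ d) ≤ Subgroup.zpowers τ := by
        rw [Subgroup.zpowers_le]
        exact Subgroup.mem_zpowers_iff.mpr ⟨d, by simp⟩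
      exact hle h
    · intro h
      apply hx
      rw [← h]
      exact Subgroup.mem_zpowers x

/-- `∑_{d ∣ n} μ(d) n/d = φ(n)`. -/
theorem sum_moebius_mul_div (n : ℕ) (hn : 0 < n) :
    ∑ d ∈ n.divisors, (moebius d : ℤ) * ((n / d : ℕ) : ℤ) = (n.totient : ℤ) := by
  have h := (sum_eq_iff_sum_mul_moebius_eq (R := ℤ) (f := fun n => (n.totient : ℤ))
    (g := fun n => (n : ℤ))).mp (fun n _ => by exact_mod_cast Nat.sum_totient n) n hn
  rw [← h]
  rw [← Nat.sum_divisorsAntidiagonal (fun a b => ((moebius a : ℤ) * ((b : ℕ) : ℤ)))]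
  rfl

theorem card_zpowers_pow (τ : G) {d : ℕ} (hd : d ∣ orderOf τ) :
    Nat.card (Subgroup.zpowers (τ ^ d)) = orderOf τ / d := by
  rw [Nat.card_zpowers, orderOf_pow, Nat.gcd_eq_right hd]

end Fermat.Agent.FrobDensity
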