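import Fermat.Agent.FrobDensity.IdealCount

/-!
# Logarithmic asymptotics of the Dedekind zeta function at `s = 1`
-/

set_option autoImplicit false

namespace Fermat.Agent.FrobDensity

open NumberField Filter Topology

variable (K : Type*) [Field K] [NumberField K]

/-- The terms of the Dedekind zeta function at a real point. -/
noncomputable def zterm (s : ℝ) (n : ℕ) : ℝ :=
  if n = 0 then 0 else (idealCount K n : ℝ) * (n : ℝ) ^ (-s)

theorem zterm_zero (s : ℝ) : zterm K s 0 = 0 := by simp [zterm]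

theorem zterm_one (s : ℝ) : zterm K s 1 = 1 := by simp [zterm, idealCount_one]

theorem zterm_nonneg (s : ℝ) (n : ℕ) : 0 ≤ zterm K s n := by
  unfold zterm
  split_ifs
  · exact le_rfl
  · positivity

theorem zterm_mul (s : ℝ) {m n : ℕ} (hmn : m.Coprime n) :
    zterm K s (m * n) = zterm K s m * zterm K s n := by
  unfold zterm
  by_cases hm : m = 0
  · simp [hm]
  by_cases hn : n = 0
  · simp [hn]
  rw [if_neg (Nat.mul_ne_zero hm hn), if_neg hm, if_neg hn, idealCount_mul K hmn]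
  push_cast
  rw [Real.mul_rpow (Nat.cast_nonneg m) (Nat.cast_nonneg n)]
  ring

theorem zterm_antitone {s s' : ℝ} (h : s' ≤ s) (n : ℕ) : zterm K s n ≤ zterm K s' n := by
  unfold zterm
  split_ifs with hn
  · exact le_rfl
  · apply mul_le_mul_of_nonneg_left _ (Nat.cast_nonneg _)
    apply Real.rpow_le_rpow_of_exponent_le
    · exact_mod_cast Nat.one_le_iff_ne_zero.mpr hn
    · linarith

theorem dedekindZeta_eq (s : ℝ) :
    dedekindZeta K (s : ℂ) = ((∑' n, zterm K s n : ℝ) : ℂ) := by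
  rw [dedekindZeta, LSeries, Complex.ofReal_tsum]
  refine tsum_congr fun n => ?_
  rcases eq_or_ne n 0 with rfl | hn
  · simp [zterm]
  · rw [LSeries.term_of_ne_zero hn, zterm, if_neg hn]
    push_cast
    rw [Complex.ofReal_cpow (Nat.cast_nonneg n)]
    push_cast
    rw [Complex.cpow_neg, div_eq_mul_inv]
    rfl

theorem tendsto_zeta :
    Tendsto (fun s : ℝ => (s - 1) * ∑' n, zterm K s n) (𝓝[>] 1)
      (𝓝 (dedekindZeta_residue K)) := by
  have h := tendsto_sub_one_mul_dedekindZeta_nhdsGT K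
  have h2 : (fun s : ℝ => ((s : ℂ) - 1) * dedekindZeta K (s : ℂ)) =
      fun s : ℝ => (((s - 1) * ∑' n, zterm K s n : ℝ) : ℂ) := by
    funext s
    rw [dedekindZeta_eq]
    push_cast
    ring
  rw [h2] at h
  exact_mod_cast (Complex.continuous_re.tendsto _).comp h

theorem summable_zterm {s : ℝ} (hs : 1 < s) : Summable (zterm K s) := by
  have h := tendsto_zeta K
  have h1 : ∀ᶠ t in 𝓝[>] (1 : ℝ), (t - 1) * ∑' n, zterm K t n ≠ 0 :=
    h.eventually_ne (dedekindZeta_residue_ne_zero K)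
  have h2 : ∀ᶠ t in 𝓝[>] (1 : ℝ), t < s := by
    apply mem_nhdsWithin_of_mem_nhds
    exact Iio_mem_nhds hs
  obtain ⟨t, ht1, ht2⟩ := (h1.and h2).exists
  have hsum : Summable (zterm K t) := by
    by_contra hns
    rw [tsum_eq_zero_of_not_summable hns, mul_zero] at ht1
    exact ht1 rfl
  exact hsum.of_nonneg_of_le (zterm_nonneg K s) (zterm_antitone K ht2.le)

/-- The local Euler factor. -/
noncomputable def efac (s : ℝ) (p : ℕ) : ℝ := ∑' e : ℕ, zterm K s (p ^ e)

theorem hasProd_efac {s : ℝ} (hs : 1 < s) :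
    HasProd (fun p : Nat.Primes => efac K s p) (∑' n, zterm K s n) := by
  apply EulerProduct.eulerProduct_hasProd (zterm_one K s) (fun h => zterm_mul K s h) _
    (zterm_zero K s)
  simpa only [Real.norm_of_nonneg (zterm_nonneg K s _)] using summable_zterm K hs

/-- The bound constant. -/
noncomputable def cbound : ℝ := ∑' e : ℕ, ((e + 3 : ℕ) : ℝ) ^ Module.finrank ℚ K * (1 / 2 : ℝ) ^ e

theorem summable_cbound :
    Summable (fun e : ℕ => ((e + 3 : ℕ) : ℝ) ^ Module.finrank ℚ K * (1 / 2 : ℝ) ^ e) := by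
  have h := summable_pow_mul_geometric_of_norm_lt_one (R := ℝ) (Module.finrank ℚ K)
    (r := 1 / 2) (by norm_num)
  have h3 := (summable_nat_add_iff 3).mpr h
  have h4 := h3.mul_left ((2 : ℝ) ^ 3)
  refine h4.congr fun e => ?_
  push_cast
  rw [pow_add]
  ring

theorem cbound_nonneg : 0 ≤ cbound K := tsum_nonneg fun e => by positivity

theorem zterm_prime {s : ℝ} (p : Nat.Primes) :
    zterm K s p = (idealCount K p : ℝ) * ((p : ℕ) : ℝ) ^ (-s) := by
  rw [zterm, if_neg p.2.ne_zero]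

theorem summable_zterm_pow {s : ℝ} (hs : 1 < s) (p : Nat.Primes) :
    Summable (fun e : ℕ => zterm K s ((p : ℕ) ^ e)) :=
  (summable_zterm K hs).comp_injective (Nat.pow_right_injective p.2.two_le)

theorem efac_eq {s : ℝ} (hs : 1 < s) (p : Nat.Primes) :
    efac K s p = 1 + zterm K s p + ∑' e : ℕ, zterm K s ((p : ℕ) ^ (e + 2)) := by
  rw [efac, ← (summable_zterm_pow K hs p).sum_add_tsum_nat_add 2]
  simp [Finset.sum_range_succ, zterm_one]

theorem zterm_pow_le {s : ℝ} (hs : 1 < s) (p : Nat.Primes) (e : ℕ) :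
    zterm K s ((p : ℕ) ^ (e + 2)) ≤
      (((e + 3 : ℕ) : ℝ) ^ Module.finrank ℚ K * (1 / 2 : ℝ) ^ e) * ((p : ℕ) : ℝ) ^ (-2 : ℝ) := by
  rw [zterm, if_neg (pow_ne_zero _ p.2.ne_zero)]
  have h1 : (idealCount K ((p : ℕ) ^ (e + 2)) : ℝ) ≤ ((e + 3 : ℕ) : ℝ) ^ Module.finrank ℚ K := by
    exact_mod_cast idealCount_prime_pow_le K p.2 (e + 2)
  have hp0 : (0 : ℝ) < ((p : ℕ) : ℝ) := by exact_mod_cast p.2.pos
  have hp1 : (1 : ℝ) ≤ ((p : ℕ) : ℝ) := by exact_mod_cast p.2.one_lt.le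
  have hp2 : (2 : ℝ) ≤ ((p : ℕ) : ℝ) := by exact_mod_cast p.2.two_le
  have h2 : ((((p : ℕ) ^ (e + 2) : ℕ)) : ℝ) ^ (-s) ≤ (1 / 2 : ℝ) ^ e * ((p : ℕ) : ℝ) ^ (-2 : ℝ) := by
    have e1 : ((((p : ℕ) ^ (e + 2) : ℕ)) : ℝ) ^ (-s) ≤ ((((p : ℕ) ^ (e + 2) : ℕ)) : ℝ) ^ (-1 : ℝ) := by
      apply Real.rpow_le_rpow_of_exponent_le
      · exact_mod_cast Nat.one_le_iff_ne_zero.mpr (pow_ne_zero _ p.2.ne_zero)
      · linarith
    refine e1.trans ?_
    rw [Real.rpow_neg_one, Nat.cast_pow, pow_add, mul_inv,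
      Real.rpow_neg hp0.le, Real.rpow_two]
    apply mul_le_mul_of_nonneg_right _ (by positivity)
    rw [one_div, inv_pow]
    apply inv_anti₀ (by positivity)
    exact pow_le_pow_left₀ (by norm_num) hp2 e
  calc _ ≤ ((e + 3 : ℕ) : ℝ) ^ Module.finrank ℚ K * ((1 / 2 : ℝ) ^ e * ((p : ℕ) : ℝ) ^ (-2 : ℝ)) :=
        mul_le_mul h1 h2 (by positivity) (by positivity)
    _ = _ := by ring

theorem efac_le {s : ℝ} (hs : 1 < s) (p : Nat.Primes) :
    efac K s p ≤ 1 + zterm K s p + cbound K * ((p : ℕ) : ℝ) ^ (-2 : ℝ) := by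
  rw [efac_eq K hs]
  gcongr
  rw [cbound, ← tsum_mul_right]
  exact ((summable_nat_add_iff 2).mpr (summable_zterm_pow K hs p)).tsum_le_tsum
    (fun e => zterm_pow_le K hs p e) ((summable_cbound K).mul_right _)

theorem le_efac {s : ℝ} (hs : 1 < s) (p : Nat.Primes) :
    1 + zterm K s p ≤ efac K s p := by
  rw [efac_eq K hs]
  have : 0 ≤ ∑' e : ℕ, zterm K s ((p : ℕ) ^ (e + 2)) := tsum_nonneg fun e => zterm_nonneg K s _
  linarith

theorem zterm_prime_le {s : ℝ} (hs : 1 < s) (p : Nat.Primes) :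
    zterm K s p ≤ 2 ^ Module.finrank ℚ K * ((p : ℕ) : ℝ) ^ (-1 : ℝ) := by
  rw [zterm_prime]
  have hp1 : (1 : ℝ) ≤ ((p : ℕ) : ℝ) := by exact_mod_cast p.2.one_lt.le
  have h1 : (idealCount K (p : ℕ) : ℝ) ≤ 2 ^ Module.finrank ℚ K := by
    have := idealCount_prime_pow_le K p.2 1
    rw [pow_one] at this
    exact_mod_cast this
  have h2 : ((p : ℕ) : ℝ) ^ (-s) ≤ ((p : ℕ) : ℝ) ^ (-1 : ℝ) :=
    Real.rpow_le_rpow_of_exponent_le hp1 (by linarith)
  exact mul_le_mul h1 h2 (by positivity) (by positivity)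

/-- Combined constant. -/
noncomputable def cbound' : ℝ := cbound K + (2 ^ Module.finrank ℚ K) ^ 2

theorem abs_log_efac_sub {s : ℝ} (hs : 1 < s) (p : Nat.Primes) :
    |Real.log (efac K s p) - zterm K s p| ≤ cbound' K * ((p : ℕ) : ℝ) ^ (-2 : ℝ) := by
  have hx : 0 ≤ zterm K s p := zterm_nonneg K s p
  have hp0 : (0 : ℝ) < ((p : ℕ) : ℝ) := by exact_mod_cast p.2.pos
  have hE : 0 < efac K s p := by linarith [le_efac K hs p]
  have hy : (0 : ℝ) ≤ ((p : ℕ) : ℝ) ^ (-2 : ℝ) := by positivity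
  have hc := cbound_nonneg K
  rw [abs_le]
  constructor
  · have h1 : Real.log (1 + zterm K s p) ≤ Real.log (efac K s p) :=
      Real.log_le_log (by linarith) (le_efac K hs p)
    have h2 : 1 - (1 + zterm K s p)⁻¹ ≤ Real.log (1 + zterm K s p) :=
      Real.one_sub_inv_le_log_of_pos (by linarith)
    have h3 : zterm K s p - zterm K s p ^ 2 ≤ 1 - (1 + zterm K s p)⁻¹ := by
      have : 0 < 1 + zterm K s p := by linarith
      rw [← sub_nonneg]
      have e : 1 - (1 + zterm K s p)⁻¹ - (zterm K s p - zterm K s p ^ 2) =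
        zterm K s p ^ 3 / (1 + zterm K s p) := by
        field_simp
        ring
      rw [e]
      positivity
    have h4 : zterm K s p ^ 2 ≤ (2 ^ Module.finrank ℚ K) ^ 2 * ((p : ℕ) : ℝ) ^ (-2 : ℝ) := by
      have := pow_le_pow_left₀ hx (zterm_prime_le K hs p) 2
      refine this.trans (le_of_eq ?_)
      rw [mul_pow]
      congr 1
      rw [← Real.rpow_natCast, ← Real.rpow_mul hp0.le]
      norm_num
    have h5 : 0 ≤ cbound K * ((p : ℕ) : ℝ) ^ (-2 : ℝ) := by positivity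
    unfold cbound'
    rw [add_mul]
    linarith
  · have h1 : Real.log (efac K s p) ≤ efac K s p - 1 := Real.log_le_sub_one_of_pos hE
    have h2 := efac_le K hs p
    have h3 : 0 ≤ ((2 : ℝ) ^ Module.finrank ℚ K) ^ 2 * ((p : ℕ) : ℝ) ^ (-2 : ℝ) := by positivity
    unfold cbound'
    rw [add_mul]
    linarith

theorem summable_primes_rpow_neg_two :
    Summable (fun p : Nat.Primes => ((p : ℕ) : ℝ) ^ (-2 : ℝ)) :=
  Nat.Primes.summable_rpow.mpr (by norm_num)

theorem summable_zterm_primes {s : ℝ} (hs : 1 < s) :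
    Summable (fun p : Nat.Primes => zterm K s p) :=
  (summable_zterm K hs).comp_injective Nat.Primes.coe_nat_injective

theorem zeta_pos {s : ℝ} (hs : 1 < s) : 0 < ∑' n, zterm K s n := by
  have h := (summable_zterm K hs).le_tsum 1 (fun j _ => zterm_nonneg K s j)
  rw [zterm_one] at h
  linarith

theorem hasSum_log_efac {s : ℝ} (hs : 1 < s) :
    HasSum (fun p : Nat.Primes => Real.log (efac K s p)) (Real.log (∑' n, zterm K s n)) := by
  have h := hasProd_efac K hs
  have hE : ∀ p : Nat.Primes, efac K s p ≠ 0 := fun p => by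
    have := le_efac K hs p
    have := zterm_nonneg K s p
    linarith
  have h2 := ((Real.continuousAt_log (zeta_pos K hs).ne').tendsto).comp h
  refine h2.congr fun T => ?_
  simp only [Function.comp_apply]
  rw [Real.log_prod (fun p _ => hE p)]

theorem abs_log_zeta_sub {s : ℝ} (hs : 1 < s) :
    |Real.log (∑' n, zterm K s n) - ∑' p : Nat.Primes, zterm K s p| ≤
      cbound' K * ∑' p : Nat.Primes, ((p : ℕ) : ℝ) ^ (-2 : ℝ) := by
  have h1 := (hasSum_log_efac K hs).sub (summable_zterm_primes K hs).hasSum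
  rw [← h1.tsum_eq, ← tsum_mul_left]
  have h3 : Summable (fun p : Nat.Primes => cbound' K * ((p : ℕ) : ℝ) ^ (-2 : ℝ)) :=
    summable_primes_rpow_neg_two.mul_left _
  have h2 : Summable (fun p : Nat.Primes => |Real.log (efac K s p) - zterm K s p|) :=
    h3.of_nonneg_of_le (fun _ => abs_nonneg _) (fun p => abs_log_efac_sub K hs p)
  calc _ ≤ ∑' p : Nat.Primes, |Real.log (efac K s p) - zterm K s p| := by
        have := norm_tsum_le_tsum_norm (f := fun p : Nat.Primes =>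
          Real.log (efac K s p) - zterm K s p) (by simpa [Real.norm_eq_abs] using h2)
        simpa [Real.norm_eq_abs] using this
    _ ≤ _ := h2.tsum_le_tsum (fun p => abs_log_efac_sub K hs p) h3

/-- `∑_ℓ a_ℓ ℓ^{-s} = -log (s-1) + O(1)` as `s → 1⁺`. -/
theorem exists_bound_sum_primes :
    ∃ C : ℝ, ∀ᶠ s in 𝓝[>] (1 : ℝ),
      |(∑' p : Nat.Primes, zterm K s p) + Real.log (s - 1)| ≤ C := by
  have h := tendsto_zeta K
  have hlog := ((Real.continuousAt_log (dedekindZeta_residue_ne_zero K)).tendsto).comp h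
  have hb : ∀ᶠ s in 𝓝[>] (1 : ℝ),
      |Real.log ((s - 1) * ∑' n, zterm K s n) - Real.log (dedekindZeta_residue K)| < 1 := by
    have := (Metric.tendsto_nhds.mp hlog) 1 one_pos
    simpa [Real.dist_eq] using this
  refine ⟨|Real.log (dedekindZeta_residue K)| + 1 +
    cbound' K * ∑' p : Nat.Primes, ((p : ℕ) : ℝ) ^ (-2 : ℝ), ?_⟩
  have hgt : ∀ᶠ s in 𝓝[>] (1 : ℝ), 1 < s := self_mem_nhdsWithin
  filter_upwards [hb, hgt] with s hs h1
  have e1 : Real.log ((s - 1) * ∑' n, zterm K s n) =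
      Real.log (s - 1) + Real.log (∑' n, zterm K s n) :=
    Real.log_mul (by linarith) (zeta_pos K h1).ne'
  have h2 := abs_log_zeta_sub K h1
  rw [e1] at hs
  rw [abs_le] at h2 ⊢
  rw [abs_lt] at hs
  have h3 := abs_le.mp (le_refl |Real.log (dedekindZeta_residue K)|)
  constructor <;> linarith [h3.1, h3.2, hs.1, hs.2, h2.1, h2.2]

end Fermat.Agent.FrobDensity
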