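import Mathlib
import Fermat.Agent.FrobDensity.FixedEmb
import Fermat.Agent.FrobDensity.GroupCount
import Fermat.Agent.FrobDensity.ZetaLog
import Fermat.Agent.GaloisBasics.FrobeniusExists

/-!
# The Frobenius density theorem
-/

set_option autoImplicit false
set_option linter.style.haveILetI false
set_option linter.unusedSectionVars false

namespace Fermat.Agent.FrobDensity

open NumberField IsLocalRing Filter Topology ArithmeticFunction

local notation "Qbar" => AlgebraicClosure ℚ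

noncomputable section

instance isAlgebraic_Qbar : Algebra.IsAlgebraic ℚ Qbar := AlgebraicClosure.isAlgebraic ℚ

instance isGalois_Qbar : IsGalois ℚ Qbar := by
  haveI : IsAlgClosure ℚ Qbar := ⟨inferInstance, inferInstance⟩
  exact IsAlgClosure.isGalois ℚ Qbar

variable (L : IntermediateField ℚ Qbar) [FiniteDimensional ℚ L] [IsGalois ℚ L]

/-- the embedding of a subfield `E` of `L` attached to `g ∈ Gal(L/ℚ)` -/
def emb (E : IntermediateField ℚ L) (g : L ≃ₐ[ℚ] L) : E →+* Qbar :=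
  (algebraMap L Qbar).comp ((g : L →+* L).comp (algebraMap E L))

theorem emb_apply (E : IntermediateField ℚ L) (g : L ≃ₐ[ℚ] L) (x : E) :
    emb L E g x = ((g (x : L) : L) : Qbar) := rfl

theorem emb_surjective (E : IntermediateField ℚ L) : Function.Surjective (emb L E) := by
  intro ψ
  let ψ' : E →ₐ[ℚ] Qbar := ψ.toRatAlgHom
  obtain ⟨χ, hχ⟩ := IsAlgClosed.surjective_domRestrict_of_isAlgebraic (K := ℚ) (L := E)
    (E := L) (M := Qbar) ψ'
  let g₀ : L →ₐ[ℚ] L := χ.restrictNormal L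
  have hg₀ : ∀ x, ((g₀ x : L) : Qbar) = χ x := fun x => χ.restrictNormal_commutes L x
  let g : L ≃ₐ[ℚ] L := AlgEquiv.ofBijective g₀ (Algebra.IsAlgebraic.algHom_bijective g₀)
  refine ⟨g, ?_⟩
  ext x
  rw [emb_apply]
  have h1 : ((g (x : L) : L) : Qbar) = χ x := hg₀ x
  rw [h1]
  have h2 := DFunLike.congr_fun hχ x
  exact h2

theorem emb_eq_iff (H : Subgroup (L ≃ₐ[ℚ] L)) (g g' : L ≃ₐ[ℚ] L) :
    emb L (IntermediateField.fixedField H) g = emb L (IntermediateField.fixedField H) g' ↔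
      g⁻¹ * g' ∈ H := by
  have h0 := IntermediateField.fixingSubgroup_fixedField H
  conv_rhs => rw [← h0]
  rw [IntermediateField.mem_fixingSubgroup_iff]
  constructor
  · intro h x hx
    have h1 := DFunLike.congr_fun h ⟨x, hx⟩
    rw [emb_apply, emb_apply] at h1
    have h2 : g x = g' x := Subtype.ext h1
    change g⁻¹ (g' x) = x
    rw [← h2]
    exact g.symm_apply_apply x
  · intro h
    ext x
    rw [emb_apply, emb_apply]
    have h1 := h x x.2
    change g⁻¹ (g' x) = x at h1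
    have h2 : g' (x : L) = g x := by
      conv_rhs => rw [← h1]
      exact (g.apply_symm_apply _).symm
    rw [h2]

/-- the restriction to `L` -/
abbrev res : (Qbar ≃ₐ[ℚ] Qbar) →* (L ≃ₐ[ℚ] L) := AlgEquiv.restrictNormalHom L

theorem res_apply (φ : Qbar ≃ₐ[ℚ] Qbar) (x : L) : ((res L φ x : L) : Qbar) = φ x :=
  φ.restrictNormal_commutes L x

theorem comp_emb (E : IntermediateField ℚ L) (φ : Qbar ≃ₐ[ℚ] Qbar) (g : L ≃ₐ[ℚ] L) :
    ((φ : Qbar →+* Qbar).comp (emb L E g)) = emb L E (res L φ * g) := by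
  ext x
  rw [emb_apply]
  change φ (emb L E g x) = _
  rw [emb_apply]
  exact (res_apply L φ (g x)).symm

open scoped Classical in
/-- number of embeddings fixed by Frobenius -/
theorem card_fixed (H : Subgroup (L ≃ₐ[ℚ] L)) (φ : Qbar ≃ₐ[ℚ] Qbar) :
    Nat.card {ψ : IntermediateField.fixedField H →+* Qbar // ((φ : Qbar →+* Qbar).comp ψ) = ψ} *
      Nat.card H = (Finset.univ.filter fun g : L ≃ₐ[ℚ] L => g⁻¹ * res L φ * g ∈ H).card := by
  set E := IntermediateField.fixedField H with hE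
  haveI : Finite (E →+* Qbar) := Finite.of_surjective _ (emb_surjective L E)
  haveI := Fintype.ofFinite (E →+* Qbar)
  have h1 : (Finset.univ.filter fun g : L ≃ₐ[ℚ] L => g⁻¹ * res L φ * g ∈ H) =
      Finset.univ.filter fun g : L ≃ₐ[ℚ] L => ((φ : Qbar →+* Qbar).comp (emb L E g)) = emb L E g := by
    refine Finset.filter_congr fun g _ => ?_
    rw [comp_emb, eq_comm, hE, emb_eq_iff, mul_assoc]
  rw [h1, Finset.card_eq_sum_card_fiberwise (f := emb L E)
    (t := Finset.univ.filter fun ψ : E →+* Qbar => ((φ : Qbar →+* Qbar).comp ψ) = ψ)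
    (fun g hg => by
      simp only [Finset.coe_filter, Finset.mem_univ, true_and, Set.mem_ofPred_eq] at hg ⊢
      exact hg)]
  have h2 : ∀ ψ ∈ Finset.univ.filter fun ψ : E →+* Qbar => ((φ : Qbar →+* Qbar).comp ψ) = ψ,
      ((Finset.univ.filter fun g : L ≃ₐ[ℚ] L =>
        ((φ : Qbar →+* Qbar).comp (emb L E g)) = emb L E g).filter
          fun g => emb L E g = ψ).card = Nat.card H := by
    intro ψ hψ
    rw [Finset.mem_filter] at hψ
    obtain ⟨g₀, rfl⟩ := emb_surjective L E ψ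
    rw [Finset.filter_filter, Nat.card_eq_fintype_card, ← Finset.card_univ]
    symm
    refine Finset.card_bij (fun (h : H) _ => g₀ * h) (fun h _ => ?_) (fun a _ b _ hab => ?_)
      (fun g hg => ?_)
    · rw [Finset.mem_filter]
      have h3 : emb L E (g₀ * h) = emb L E g₀ := by
        rw [eq_comm, hE, emb_eq_iff, inv_mul_cancel_left]
        exact h.2
      refine ⟨Finset.mem_univ _, ?_, h3⟩
      rw [h3]
      exact hψ.2
    · exact Subtype.ext (mul_left_cancel hab)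
    · rw [Finset.mem_filter] at hg
      have h3 := hg.2.2
      rw [eq_comm, hE, emb_eq_iff] at h3
      exact ⟨⟨_, h3⟩, Finset.mem_univ _, by simp⟩
  rw [Finset.sum_congr rfl h2, Finset.sum_const, smul_eq_mul, Nat.card_eq_fintype_card,
    Fintype.card_subtype]

theorem exists_bound_comb {ι : Type*} (s : Finset ι) (c : ι → ℝ) (K : ι → Type)
    [∀ i, Field (K i)] [∀ i, NumberField (K i)] :
    ∃ C : ℝ, ∀ᶠ t in 𝓝[>] (1 : ℝ),
      |(∑ i ∈ s, c i * ∑' p : Nat.Primes, zterm (K i) t p) + (∑ i ∈ s, c i) * Real.log (t - 1)|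
        ≤ C := by
  choose C hC using fun i => exists_bound_sum_primes (K i)
  refine ⟨∑ i ∈ s, |c i| * C i, ?_⟩
  have h : ∀ᶠ t in 𝓝[>] (1 : ℝ), ∀ i ∈ s,
      |(∑' p : Nat.Primes, zterm (K i) t p) + Real.log (t - 1)| ≤ C i :=
    (Filter.eventually_all_finset s).mpr fun i _ => hC i
  filter_upwards [h] with t ht
  rw [Finset.sum_mul, ← Finset.sum_add_distrib]
  refine (Finset.abs_sum_le_sum_abs _ _).trans (Finset.sum_le_sum fun i hi => ?_)
  rw [← mul_add, abs_mul]
  exact mul_le_mul_of_nonneg_left (ht i hi) (abs_nonneg _)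

instance numberField_sub (E : IntermediateField ℚ L) : NumberField E where
  to_charZero := inferInstance
  to_finiteDimensional := inferInstance

/-- the Möbius combination of ideal counts -/
def Wt (τ : L ≃ₐ[ℚ] L) (l : ℕ) : ℤ :=
  ∑ d ∈ (orderOf τ).divisors, (moebius d : ℤ) * ((orderOf τ / d : ℕ) : ℤ) *
    (idealCount (IntermediateField.fixedField (Subgroup.zpowers (τ ^ d))) l : ℤ)

open scoped Classical in
theorem exists_Wt_eq (τ : L ≃ₐ[ℚ] L) : ∃ D : ℤ, D ≠ 0 ∧ ∀ (q : ℕ), q.Prime → ¬ (q : ℤ) ∣ D →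
      ∀ A : ValuationSubring Qbar, A.LiesOverPrime q →
        ∀ σ : Qbar ≃ₐ[ℚ] Qbar, A.IsFrobeniusAt σ q →
          Wt L τ q = ((Finset.univ.filter fun g : L ≃ₐ[ℚ] L =>
            Subgroup.zpowers (g⁻¹ * res L σ * g) = Subgroup.zpowers τ).card : ℤ) := by
  choose D hD0 hD using fun d : ℕ =>
    exists_idealCount_eq (IntermediateField.fixedField (Subgroup.zpowers (τ ^ d)))
  refine ⟨∏ d ∈ (orderOf τ).divisors, D d, Finset.prod_ne_zero_iff.mpr fun d _ => hD0 d,
    fun q hq hqD A hA σ hσ => ?_⟩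
  have h1 : ∀ d ∈ (orderOf τ).divisors, (moebius d : ℤ) * ((orderOf τ / d : ℕ) : ℤ) *
      (idealCount (IntermediateField.fixedField (Subgroup.zpowers (τ ^ d))) q : ℤ) =
      ∑ g : L ≃ₐ[ℚ] L, (moebius d : ℤ) *
        (if g⁻¹ * res L σ * g ∈ Subgroup.zpowers (τ ^ d) then 1 else 0) := by
    intro d hd
    have h2 : ¬ (q : ℤ) ∣ D d := fun h => hqD (h.trans (Finset.dvd_prod_of_mem D hd))
    have h3 := hD d q hq h2 A hA σ hσ
    have h4 := card_fixed L (Subgroup.zpowers (τ ^ d)) σ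
    rw [← h3, card_zpowers_pow τ (Nat.dvd_of_mem_divisors hd)] at h4
    rw [← Finset.mul_sum, Finset.sum_boole, mul_assoc]
    congr 1
    rw [mul_comm]
    exact_mod_cast h4
  rw [Wt, Finset.sum_congr rfl h1, Finset.sum_comm]
  have h2 : ∀ g : L ≃ₐ[ℚ] L, ∑ d ∈ (orderOf τ).divisors, (moebius d : ℤ) *
        (if g⁻¹ * res L σ * g ∈ Subgroup.zpowers (τ ^ d) then 1 else 0) =
      if Subgroup.zpowers (g⁻¹ * res L σ * g) = Subgroup.zpowers τ then 1 else 0 :=
    fun g => sum_moebius_indicator τ _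
  rw [Finset.sum_congr rfl fun g _ => h2 g, Finset.sum_boole]

/-- The Möbius combination is non-zero for infinitely many primes. -/
theorem exists_Wt_ne_zero (τ : L ≃ₐ[ℚ] L) (T : Finset ℕ) :
    ∃ q : ℕ, q.Prime ∧ q ∉ T ∧ Wt L τ q ≠ 0 := by
  by_contra hcon
  push Not at hcon
  set n := orderOf τ with hn
  have hn0 : 0 < n := orderOf_pos τ
  let K : ℕ → Type := fun d => IntermediateField.fixedField (Subgroup.zpowers (τ ^ d))
  letI : ∀ d, Field (K d) := fun d => inferInstanceAs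
    (Field (IntermediateField.fixedField (Subgroup.zpowers (τ ^ d))))
  letI : ∀ d, NumberField (K d) := fun d => inferInstanceAs
    (NumberField (IntermediateField.fixedField (Subgroup.zpowers (τ ^ d))))
  let c : ℕ → ℝ := fun d => ((moebius d : ℤ) : ℝ) * ((n / d : ℕ) : ℝ)
  obtain ⟨C, hC⟩ := exists_bound_comb n.divisors c K
  have hc : ∑ d ∈ n.divisors, c d = (n.totient : ℝ) := by
    have := congrArg (fun z : ℤ => (z : ℝ)) (sum_moebius_mul_div n hn0)
    simp only [Int.cast_sum, Int.cast_mul, Int.cast_natCast] at this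
    exact this
  -- the combination is a finite sum
  have hfin : ∀ t : ℝ, 1 < t → ∑ d ∈ n.divisors, c d * ∑' p : Nat.Primes, zterm (K d) t p =
      ∑' p : Nat.Primes, (Wt L τ p : ℝ) * ((p : ℕ) : ℝ) ^ (-t) := by
    intro t ht
    have h1 : ∀ d ∈ n.divisors, c d * ∑' p : Nat.Primes, zterm (K d) t p =
        ∑' p : Nat.Primes, c d * zterm (K d) t p := fun d _ => tsum_mul_left.symm
    rw [Finset.sum_congr rfl h1, ← Summable.tsum_finsetSum fun d _ =>
      (summable_zterm_primes (K d) ht).mul_left _]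
    refine tsum_congr fun p => ?_
    rw [Wt, Int.cast_sum, Finset.sum_mul]
    refine Finset.sum_congr rfl fun d _ => ?_
    rw [zterm_prime]
    have hK : idealCount (K d) p =
      idealCount (IntermediateField.fixedField (Subgroup.zpowers (τ ^ d))) p := rfl
    rw [← hK]
    simp only [c, Int.cast_mul, Int.cast_natCast, ← hn]
    ring
  have hbd : ∀ t : ℝ, 1 < t → |∑' p : Nat.Primes, (Wt L τ p : ℝ) * ((p : ℕ) : ℝ) ^ (-t)| ≤
      ∑ q ∈ T, |(Wt L τ q : ℝ)| := by
    intro t ht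
    classical
    let T' : Finset Nat.Primes := T.subtype Nat.Prime
    have h1 : ∑' p : Nat.Primes, (Wt L τ p : ℝ) * ((p : ℕ) : ℝ) ^ (-t) =
        ∑ p ∈ T', (Wt L τ p : ℝ) * ((p : ℕ) : ℝ) ^ (-t) := by
      refine tsum_eq_sum fun p hp => ?_
      have h2 : (p : ℕ) ∉ T := fun h => hp (Finset.mem_subtype.mpr h)
      rw [hcon p p.2 h2]
      simp
    rw [h1]
    refine (Finset.abs_sum_le_sum_abs _ _).trans ?_
    calc ∑ p ∈ T', |(Wt L τ p : ℝ) * ((p : ℕ) : ℝ) ^ (-t)| ≤ ∑ p ∈ T', |(Wt L τ p : ℝ)| := by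
          refine Finset.sum_le_sum fun p _ => ?_
          rw [abs_mul]
          refine mul_le_of_le_one_right (abs_nonneg _) ?_
          rw [abs_of_nonneg (by positivity)]
          refine Real.rpow_le_one_of_one_le_of_nonpos ?_ (by linarith)
          exact_mod_cast p.2.one_lt.le
      _ = ∑ q ∈ T'.map (Function.Embedding.subtype Nat.Prime), |(Wt L τ q : ℝ)| := by
          rw [Finset.sum_map]
          rfl
      _ ≤ ∑ q ∈ T, |(Wt L τ q : ℝ)| := by
          refine Finset.sum_le_sum_of_subset_of_nonneg ?_ fun _ _ _ => abs_nonneg _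
          intro q hq
          rw [Finset.mem_map] at hq
          obtain ⟨p, hp, rfl⟩ := hq
          exact Finset.mem_subtype.mp hp
  -- contradiction as `t → 1⁺`
  have hlog : Tendsto (fun t : ℝ => Real.log (t - 1)) (𝓝[>] 1) atBot := by
    have h1 : Tendsto (fun t : ℝ => t - 1) (𝓝[>] 1) (𝓝[>] 0) := by
      refine tendsto_nhdsWithin_iff.mpr ⟨?_, ?_⟩
      · have : Tendsto (fun t : ℝ => t - 1) (𝓝 1) (𝓝 (1 - 1)) := by
          exact (continuous_id.sub continuous_const).tendsto 1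
        rw [sub_self] at this
        exact this.mono_left nhdsWithin_le_nhds
      · filter_upwards [self_mem_nhdsWithin] with t ht
        exact sub_pos.mpr (Set.mem_Ioi.mp ht)
    exact Real.tendsto_log_nhdsGT_zero.comp h1
  have hpos : (0 : ℝ) < n.totient := by exact_mod_cast Nat.totient_pos.mpr hn0
  have h2 := (hlog.const_mul_atBot hpos).eventually
    (eventually_lt_atBot (-(C + ∑ q ∈ T, |(Wt L τ q : ℝ)|)))
  have hgt : ∀ᶠ t in 𝓝[>] (1 : ℝ), 1 < t := self_mem_nhdsWithin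
  obtain ⟨t, h3, h4, h5⟩ := (hC.and (h2.and hgt)).exists
  rw [hfin t h5, hc] at h3
  have h6 := hbd t h5
  rw [abs_le] at h3 h6
  linarith [h3.1, h6.2]

open scoped Pointwise in
theorem conj_liesOverPrime {A : ValuationSubring Qbar} {q : ℕ} (hA : A.LiesOverPrime q)
    (γ : Qbar ≃ₐ[ℚ] Qbar) : (γ⁻¹ • A).LiesOverPrime q := by
  have h1 : (q : Qbar) ∈ A.nonunits := hA
  change (q : Qbar) ∈ (γ⁻¹ • A).nonunits
  rw [ValuationSubring.mem_nonunits_iff_or] at h1 ⊢
  refine h1.imp id fun h h2 => h ?_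
  rw [ValuationSubring.mem_inv_pointwise_smul_iff] at h2
  have h3 : γ • ((q : Qbar)⁻¹) = (q : Qbar)⁻¹ := by
    change γ ((q : Qbar)⁻¹) = _
    rw [map_inv₀, map_natCast]
  rwa [h3] at h2

open scoped Pointwise in
theorem mem_nonunits_conj {A : ValuationSubring Qbar} (γ : Qbar ≃ₐ[ℚ] Qbar) {x : Qbar} :
    x ∈ (γ⁻¹ • A).nonunits ↔ γ x ∈ A.nonunits := by
  rw [ValuationSubring.mem_nonunits_iff_or, ValuationSubring.mem_nonunits_iff_or,
    ValuationSubring.mem_inv_pointwise_smul_iff]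
  have h3 : γ • (x⁻¹) = (γ x)⁻¹ := map_inv₀ γ x
  rw [h3, map_eq_zero]

theorem isFrobeniusAt_of {A : ValuationSubring Qbar} {q : ℕ} {σ : Qbar ≃ₐ[ℚ] Qbar}
    (hσ : σ ∈ A.decompositionSubgroup ℚ) (h : ∀ x ∈ A, σ x - x ^ q ∈ A.nonunits) :
    A.IsFrobeniusAt σ q := by
  refine ⟨hσ, fun y => ?_⟩
  obtain ⟨x, rfl⟩ := IsLocalRing.residue_surjective y
  rw [← ResidueField.residue_smul, ← map_pow, ← sub_eq_zero, ← map_sub, residue_eq_zero_iff,
    ← ValuationSubring.coe_mem_nonunits_iff]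
  exact h x x.2

theorem isFrobeniusAt_sub_mem {A : ValuationSubring Qbar} {q : ℕ} {σ : Qbar ≃ₐ[ℚ] Qbar}
    (h : A.IsFrobeniusAt σ q) {x : Qbar} (hx : x ∈ A) : σ x - x ^ q ∈ A.nonunits := by
  obtain ⟨hd, h⟩ := h
  have h1 := h (residue A ⟨x, hx⟩)
  rw [← ResidueField.residue_smul, ← map_pow, ← sub_eq_zero, ← map_sub, residue_eq_zero_iff,
    ← ValuationSubring.coe_mem_nonunits_iff] at h1
  exact h1

open scoped Pointwise in
theorem isFrobeniusAt_conj {A : ValuationSubring Qbar} {q : ℕ} {σ : Qbar ≃ₐ[ℚ] Qbar}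
    (h : A.IsFrobeniusAt σ q) (γ : Qbar ≃ₐ[ℚ] Qbar) :
    (γ⁻¹ • A).IsFrobeniusAt (γ⁻¹ * σ * γ) q := by
  refine isFrobeniusAt_of ?_ fun x hx => ?_
  · have h1 : σ • A = A := h.mem_decompositionSubgroup
    change (γ⁻¹ * σ * γ) • (γ⁻¹ • A) = γ⁻¹ • A
    rw [mul_smul, smul_inv_smul, mul_smul, h1]
  · rw [ValuationSubring.mem_inv_pointwise_smul_iff] at hx
    rw [mem_nonunits_conj]
    have h2 := isFrobeniusAt_sub_mem h hx
    have h3 : γ ((γ⁻¹ * σ * γ) x - x ^ q) = σ (γ • x) - (γ • x) ^ q := by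
      rw [map_sub, map_pow]
      congr 1
      change γ (γ⁻¹ (σ (γ x))) = σ (γ x)
      exact γ.apply_symm_apply _
    rw [h3]
    exact h2

open scoped Pointwise in
/-- **Frobenius density theorem** (cyclic version). -/
theorem exists_frobenius (σ : Qbar ≃ₐ[ℚ] Qbar) (T : Finset ℕ) :
    ∃ l : ℕ, l.Prime ∧ l ∉ T ∧ ∃ A : ValuationSubring Qbar, A.LiesOverPrime l ∧
      ∃ φ : Qbar ≃ₐ[ℚ] Qbar, A.IsFrobeniusAt φ l ∧
        Subgroup.zpowers (res L φ) = Subgroup.zpowers (res L σ) := by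
  classical
  obtain ⟨D, hD0, hD⟩ := exists_Wt_eq L (res L σ)
  obtain ⟨q, hq, hqT, hW⟩ := exists_Wt_ne_zero L (res L σ) (T ∪ D.natAbs.primeFactors)
  rw [Finset.mem_union, not_or] at hqT
  have hqD : ¬ (q : ℤ) ∣ D := by
    intro h
    refine hqT.2 (Nat.mem_primeFactors.mpr ⟨hq, ?_, ?_⟩)
    · exact Int.natCast_dvd.mp h
    · exact Int.natAbs_ne_zero.mpr hD0
  obtain ⟨A, hA⟩ := Fermat.Agent.GaloisBasics.exists_liesOverPrime hq
  obtain ⟨φ, hφ⟩ := Fermat.Agent.GaloisBasics.exists_isFrobeniusAt hq A hA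
  rw [hD q hq hqD A hA φ hφ] at hW
  have hne : (Finset.univ.filter fun g : L ≃ₐ[ℚ] L =>
      Subgroup.zpowers (g⁻¹ * res L φ * g) = Subgroup.zpowers (res L σ)).Nonempty := by
    rw [← Finset.card_pos]
    exact Nat.pos_of_ne_zero (by exact_mod_cast hW)
  obtain ⟨g, hg⟩ := hne
  rw [Finset.mem_filter] at hg
  obtain ⟨γ, rfl⟩ := AlgEquiv.restrictNormalHom_surjective (F := ℚ) (K₁ := L) Qbar g
  refine ⟨q, hq, hqT.1, γ⁻¹ • A, conj_liesOverPrime hA γ, γ⁻¹ * φ * γ,
    isFrobeniusAt_conj hφ γ, ?_⟩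
  rw [map_mul, map_mul, map_inv]
  exact hg.2

/-- **Frobenius density theorem**, version for an arbitrary finite level: up to powers (prime to
the order) every automorphism agrees on `L` with a Frobenius element. -/
theorem exists_frobenius_pow (L : IntermediateField ℚ Qbar) [FiniteDimensional ℚ L]
    (σ : Qbar ≃ₐ[ℚ] Qbar) (T : Finset ℕ) :
    ∃ l : ℕ, l.Prime ∧ l ∉ T ∧ ∃ A : ValuationSubring Qbar, A.LiesOverPrime l ∧
      ∃ φ : Qbar ≃ₐ[ℚ] Qbar, A.IsFrobeniusAt φ l ∧ ∃ i j : ℕ,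
        (∀ x ∈ L, (φ ^ i) x = σ x) ∧ (∀ x ∈ L, (σ ^ j) x = φ x) := by
  let M : IntermediateField ℚ Qbar := IntermediateField.normalClosure ℚ L Qbar
  haveI : Normal ℚ M := normalClosure.normal ℚ L Qbar
  haveI : IsGalois ℚ M := ⟨⟩
  haveI : FiniteDimensional ℚ M := inferInstance
  have hLM : L ≤ M := L.le_normalClosure
  obtain ⟨l, hl, hlT, A, hA, φ, hφ, hz⟩ := exists_frobenius M σ T
  refine ⟨l, hl, hlT, A, hA, φ, hφ, ?_⟩
  have h1 : res M σ ∈ Submonoid.powers (res M φ) := by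
    rw [mem_powers_iff_mem_zpowers, hz]
    exact Subgroup.mem_zpowers _
  have h2 : res M φ ∈ Submonoid.powers (res M σ) := by
    rw [mem_powers_iff_mem_zpowers, ← hz]
    exact Subgroup.mem_zpowers _
  obtain ⟨i, hi⟩ := h1
  obtain ⟨j, hj⟩ := h2
  refine ⟨i, j, fun x hx => ?_, fun x hx => ?_⟩
  · have h3 := res_apply M (φ ^ i) ⟨x, hLM hx⟩
    rw [map_pow] at h3
    simp only at hi
    rw [hi, res_apply] at h3
    exact h3.symm
  · have h3 := res_apply M (σ ^ j) ⟨x, hLM hx⟩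
    rw [map_pow] at h3
    simp only at hj
    rw [hj, res_apply] at h3
    exact h3.symm

end

end Fermat.Agent.FrobDensity
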