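import Fermat.Agent.FrobDensity.IdealCount
import Fermat.Prelude.Def_EllipticCurve_FrobeniusTrace

/-!
# Degree one primes and fixed embeddings of Frobenius
-/

set_option autoImplicit false

namespace Fermat.Agent.FrobDensity

open NumberField IsLocalRing

local notation "Qbar" => AlgebraicClosure ℚ

section valuation

variable {L : Type*} [Field L] (A : ValuationSubring L)

theorem mem_of_isIntegral_int {x : L} (hx : IsIntegral ℤ x) : x ∈ A := by
  have h1 : IsIntegral A x := hx.tower_top
  obtain ⟨y, hy⟩ := IsIntegrallyClosed.isIntegral_iff.mp h1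
  rw [← hy]
  exact y.2

variable {A}

theorem natCast_residue_eq_zero {q : ℕ} (hA : A.LiesOverPrime q) :
    (q : ResidueField A) = 0 := by
  have h : (q : L) ∈ A.nonunits := hA
  rw [ValuationSubring.mem_nonunits_iff_exists_mem_maximalIdeal] at h
  obtain ⟨h1, h2⟩ := h
  have h3 : residue A ⟨(q : L), h1⟩ = 0 := (residue_eq_zero_iff _).mpr h2
  have h4 : (⟨(q : L), h1⟩ : A) = (q : A) := Subtype.ext (by simp)
  rw [h4, map_natCast] at h3
  exact h3

theorem charP_residue {q : ℕ} (hq : q.Prime) (hA : A.LiesOverPrime q) :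
    CharP (ResidueField A) q := by
  obtain ⟨p, hp⟩ := CharP.exists (ResidueField A)
  have h1 : p ∣ q := (CharP.cast_eq_zero_iff (ResidueField A) p q).mp (natCast_residue_eq_zero hA)
  rcases (Nat.dvd_prime hq).mp h1 with h | h
  · exact absurd h (CharP.char_ne_one (ResidueField A) p)
  · rwa [← h]

theorem dvd_of_intCast_residue_eq_zero {q : ℕ} (hq : q.Prime) (hA : A.LiesOverPrime q) {n : ℤ}
    (hn : (n : ResidueField A) = 0) : (q : ℤ) ∣ n := by
  haveI := charP_residue hq hA
  exact (CharP.intCast_eq_zero_iff (ResidueField A) q n).mp hn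

/-- A nonzero algebraic integer divides a nonzero rational integer. -/
theorem exists_int_mul_of_isIntegral [CharZero L] {z : L} (hz : IsIntegral ℤ z) (hz0 : z ≠ 0) :
    ∃ n : ℤ, n ≠ 0 ∧ ∃ w : L, IsIntegral ℤ w ∧ (n : L) = z * w := by
  set P := minpoly ℤ z with hP
  have h0 : P.coeff 0 ≠ 0 := by
    intro h
    have hX : Polynomial.X ∣ P := Polynomial.X_dvd_iff.mpr h
    have hirr := minpoly.irreducible hz
    obtain ⟨Q, hQ⟩ := hX
    have hev : Polynomial.aeval z P = 0 := minpoly.aeval ℤ z
    rw [hQ, map_mul, Polynomial.aeval_X] at hev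
    have hQz : Polynomial.aeval z Q = 0 := (mul_eq_zero.mp hev).resolve_left hz0
    have hmon : P.Monic := minpoly.monic hz
    have hQmon : Q.Monic := by
      rw [hQ] at hmon
      exact Polynomial.Monic.of_mul_monic_left Polynomial.monic_X hmon
    have hdeg := minpoly.min ℤ z hQmon hQz
    rw [← hP, hQ, Polynomial.degree_mul, Polynomial.degree_X] at hdeg
    have hQ0 : Q.degree ≠ ⊥ := Polynomial.degree_ne_bot.mpr hQmon.ne_zero
    rw [Polynomial.degree_eq_natDegree hQmon.ne_zero] at hdeg
    have : (1 + Q.natDegree : WithBot ℕ) ≤ Q.natDegree := hdeg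
    have h2 : 1 + Q.natDegree ≤ Q.natDegree := by exact_mod_cast this
    omega
  refine ⟨-P.coeff 0, neg_ne_zero.mpr h0, Polynomial.aeval z P.divX, ?_, ?_⟩
  · exact (IsIntegral.of_mem_of_fg _ hz.fg_adjoin_singleton _
      (Polynomial.aeval_mem_adjoin_singleton ℤ z))
  · have h1 : Polynomial.aeval z P = 0 := minpoly.aeval ℤ z
    rw [← Polynomial.divX_mul_X_add P] at h1
    simp only [map_add, map_mul, Polynomial.aeval_X, Polynomial.aeval_C] at h1
    have h2 : (algebraMap ℤ L) (P.coeff 0) = ((P.coeff 0 : ℤ) : L) := rfl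
    rw [h2] at h1
    push_cast
    linear_combination -h1

end valuation

section reduction

variable {F : Type*} [Field F] [NumberField F] {L : Type*} [Field L] [CharZero L]
variable (A : ValuationSubring L)

/-- Reduction of an embedding at a place. -/
noncomputable def redHom (φ : F →+* L) : 𝓞 F →+* ResidueField A :=
  (residue A).comp ((φ.comp (algebraMap (𝓞 F) F)).codRestrict A
    (fun x => mem_of_isIntegral_int A (map_isIntegral_int φ (RingOfIntegers.isIntegral_coe x))))

theorem redHom_apply (φ : F →+* L) (x : 𝓞 F)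
    (hx : φ (x : F) ∈ A) : redHom A φ x = residue A ⟨φ (x : F), hx⟩ := rfl

/-- Away from a finite set of primes, reduction is injective on embeddings. -/
theorem exists_redHom_injective (F : Type*) [Field F] [NumberField F] (L : Type*) [Field L]
    [CharZero L] : ∃ D : ℤ, D ≠ 0 ∧
    ∀ (q : ℕ), q.Prime → ¬ (q : ℤ) ∣ D → ∀ A : ValuationSubring L, A.LiesOverPrime q →
      Function.Injective (fun φ : F →+* L => redHom A φ) := by
  classical
  haveI : Finite (F →+* L) := by
    haveI : CharZero L := inferInstance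
    letI : Algebra ℚ L := DivisionRing.toRatAlgebra
    have e : (F →+* L) → (F →ₐ[ℚ] L) := fun f => RingHom.toRatAlgHom f
    have he : Function.Injective (fun f : F →+* L => (RingHom.toRatAlgHom f : F →ₐ[ℚ] L)) := by
      intro f g h
      ext x
      exact congrArg (fun k : F →ₐ[ℚ] L => k x) h
    exact Finite.of_injective _ he
  haveI := Fintype.ofFinite (F →+* L)
  have key : ∀ p : (F →+* L) × (F →+* L), ∃ n : ℤ, n ≠ 0 ∧ (p.1 ≠ p.2 → ∃ x : 𝓞 F,
      ∃ w : L, IsIntegral ℤ w ∧ (n : L) = (p.1 (x : F) - p.2 (x : F)) * w) := by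
    intro p
    by_cases hp : p.1 = p.2
    · exact ⟨1, one_ne_zero, fun h => absurd hp h⟩
    · have : ∃ x : 𝓞 F, p.1 (x : F) ≠ p.2 (x : F) := by
        by_contra hcon
        push Not at hcon
        apply hp
        apply IsFractionRing.injective_comp_algebraMap (A := 𝓞 F)
        ext x
        exact hcon x
      obtain ⟨x, hx⟩ := this
      have hint : IsIntegral ℤ (p.1 (x : F) - p.2 (x : F)) :=
        (map_isIntegral_int p.1 (RingOfIntegers.isIntegral_coe x)).sub
          (map_isIntegral_int p.2 (RingOfIntegers.isIntegral_coe x))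
      obtain ⟨n, hn, w, hw, hnw⟩ := exists_int_mul_of_isIntegral hint (sub_ne_zero.mpr hx)
      exact ⟨n, hn, fun _ => ⟨x, w, hw, hnw⟩⟩
  choose n hn0 hn using key
  refine ⟨∏ p, n p, Finset.prod_ne_zero_iff.mpr fun p _ => hn0 p, ?_⟩
  intro q hq hqD A hA φ ψ hred
  by_contra hne
  obtain ⟨x, w, hw, hnw⟩ := hn (φ, ψ) hne
  have hφ : φ (x : F) ∈ A :=
    mem_of_isIntegral_int A (map_isIntegral_int φ (RingOfIntegers.isIntegral_coe x))
  have hψ : ψ (x : F) ∈ A :=
    mem_of_isIntegral_int A (map_isIntegral_int ψ (RingOfIntegers.isIntegral_coe x))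
  have hwA : w ∈ A := mem_of_isIntegral_int A hw
  have h1 : residue A ⟨φ (x : F), hφ⟩ = residue A ⟨ψ (x : F), hψ⟩ :=
    congrArg (fun k : 𝓞 F →+* ResidueField A => k x) hred
  have h2 : ((n (φ, ψ) : ℤ) : ResidueField A) = 0 := by
    have h3 : ((n (φ, ψ) : ℤ) : A) = (⟨φ (x : F), hφ⟩ - ⟨ψ (x : F), hψ⟩) * ⟨w, hwA⟩ := by
      apply Subtype.ext
      push_cast
      exact hnw
    have h4 := congrArg (residue A) h3
    rw [map_intCast, map_mul, map_sub, h1, sub_self, zero_mul] at h4
    exact h4
  have h5 := dvd_of_intCast_residue_eq_zero hq hA h2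
  exact hqD (h5.trans (Finset.dvd_prod_of_mem n (Finset.mem_univ (φ, ψ))))

/-- The number of homomorphisms from the ring of integers to a domain is at most the degree. -/
theorem card_ringHom_le (F : Type*) [Field F] [NumberField F] (k : Type*) [Field k] :
    Finite (𝓞 F →+* k) ∧ Nat.card (𝓞 F →+* k) ≤ Module.finrank ℚ F := by
  classical
  have hli : LinearIndependent k (fun f : 𝓞 F →* k => (f : 𝓞 F → k)) :=
    linearIndependent_monoidHom (𝓞 F) k
  have hli2 : LinearIndependent k (fun f : 𝓞 F →+* k => (f : 𝓞 F → k)) :=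
    hli.comp (fun f : 𝓞 F →+* k => (f : 𝓞 F →* k)) (fun f g h => by
      ext x
      exact congrArg (fun k' : 𝓞 F →* k => k' x) h)
  let b := RingOfIntegers.basis F
  have hli3 : LinearIndependent k (fun f : 𝓞 F →+* k => fun i => f (b i)) := by
    rw [linearIndependent_iff'] at hli2 ⊢
    intro s g hg
    apply hli2 s g
    funext x
    have hx : x = ∑ i, b.repr x i • b i := (b.sum_repr x).symm
    have h1 : ∀ f : 𝓞 F →+* k, f x = ∑ i, (b.repr x i : k) * f (b i) := by
      intro f
      conv_lhs => rw [hx]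
      rw [map_sum]
      refine Finset.sum_congr rfl fun i _ => ?_
      rw [zsmul_eq_mul, map_mul, map_intCast]
    simp only [Finset.sum_apply, Pi.smul_apply, smul_eq_mul, Pi.zero_apply]
    simp_rw [h1, Finset.mul_sum]
    rw [Finset.sum_comm]
    apply Finset.sum_eq_zero
    intro i _
    have h2 := congrFun hg i
    simp only [Finset.sum_apply, Pi.smul_apply, smul_eq_mul, Pi.zero_apply] at h2
    calc ∑ f ∈ s, g f * ((b.repr x i : k) * f (b i))
        = (b.repr x i : k) * ∑ f ∈ s, g f * f (b i) := by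
          rw [Finset.mul_sum]
          exact Finset.sum_congr rfl fun f _ => by ring
      _ = 0 := by rw [h2, mul_zero]
  haveI : Finite (𝓞 F →+* k) := hli3.finite
  haveI := Fintype.ofFinite (𝓞 F →+* k)
  refine ⟨inferInstance, ?_⟩
  rw [Nat.card_eq_fintype_card]
  refine hli3.fintype_card_le_finrank.trans (le_of_eq ?_)
  rw [Module.finrank_fintype_fun_eq_card, ← RingOfIntegers.rank F,
    Module.finrank_eq_card_basis b]

end reduction

end Fermat.Agent.FrobDensity
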