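import Mathlib

/-!
# Counting ideals of given norm in a number field

Multiplicativity and a polynomial bound on prime powers.
-/

set_option autoImplicit false

namespace Fermat.Agent.FrobDensity

open NumberField Ideal

variable (K : Type*) [Field K] [NumberField K]

/-- Number of ideals of norm `n`. -/
noncomputable def idealCount (n : ℕ) : ℕ := Nat.card {I : Ideal (𝓞 K) // absNorm I = n}

instance (n : ℕ) : Finite {I : Ideal (𝓞 K) // absNorm I = n} :=
  (Ideal.finite_setOfPred_absNorm_eq n).to_subtype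

theorem idealCount_zero : idealCount K 0 = 1 := by
  simp [idealCount, Ideal.absNorm_eq_zero_iff]

theorem idealCount_one : idealCount K 1 = 1 := by
  simp [idealCount, Ideal.absNorm_eq_one_iff]

section mult

variable {K}

theorem norm_coprime_sup_eq_top {I J : Ideal (𝓞 K)} (h : (absNorm I).Coprime (absNorm J)) :
    I ⊔ J = ⊤ := by
  have hI := Ideal.absNorm_mem I
  have hJ := Ideal.absNorm_mem J
  rw [Ideal.eq_top_iff_one]
  have hc : IsCoprime ((absNorm I : ℤ)) ((absNorm J : ℤ)) := Nat.isCoprime_iff_coprime.mpr h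
  obtain ⟨a, b, hab⟩ := hc
  have h1 : (1 : 𝓞 K) = (a : 𝓞 K) * (absNorm I : 𝓞 K) + (b : 𝓞 K) * (absNorm J : 𝓞 K) := by
    have := congrArg (fun z : ℤ => (z : 𝓞 K)) hab
    push_cast at this
    exact this.symm
  rw [h1]
  exact Ideal.add_mem _ (Ideal.mem_sup_left (Ideal.mul_mem_left _ _ hI))
    (Ideal.mem_sup_right (Ideal.mul_mem_left _ _ hJ))

theorem mul_sup_span_eq {m n : ℕ} (hmn : m.Coprime n) {I J : Ideal (𝓞 K)}
    (hI : absNorm I = m) (hJ : absNorm J = n) :
    I * J ⊔ Ideal.span {(m : 𝓞 K)} = I := by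
  have hmI : (m : 𝓞 K) ∈ I := hI ▸ Ideal.absNorm_mem I
  apply le_antisymm
  · exact sup_le Ideal.mul_le_left ((Ideal.span_singleton_le_iff_mem _).mpr hmI)
  · have hdvd : I ∣ Ideal.span {(m : 𝓞 K)} :=
      Ideal.dvd_iff_le.mpr ((Ideal.span_singleton_le_iff_mem _).mpr hmI)
    obtain ⟨I', hI'⟩ := hdvd
    rw [hI', ← Ideal.mul_sup]
    have htop : J ⊔ I' = ⊤ := by
      rw [Ideal.eq_top_iff_one]
      have hc : IsCoprime ((m : ℤ)) ((n : ℤ)) := Nat.isCoprime_iff_coprime.mpr hmn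
      obtain ⟨a, b, hab⟩ := hc
      have h1 : (1 : 𝓞 K) = (a : 𝓞 K) * (m : 𝓞 K) + (b : 𝓞 K) * (n : 𝓞 K) := by
        have := congrArg (fun z : ℤ => (z : 𝓞 K)) hab
        push_cast at this
        exact this.symm
      rw [h1]
      refine Ideal.add_mem _ (Ideal.mem_sup_right (Ideal.mul_mem_left _ _ ?_))
        (Ideal.mem_sup_left (Ideal.mul_mem_left _ _ ?_))
      · have : (m : 𝓞 K) ∈ I * I' := hI' ▸ Ideal.mem_span_singleton_self _
        exact Ideal.mul_le_right this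
      · exact hJ ▸ Ideal.absNorm_mem J
    rw [htop, Ideal.mul_top]

theorem sup_span_mul_sup_span {m n : ℕ} (hmn : m.Coprime n) {I : Ideal (𝓞 K)}
    (hI : absNorm I = m * n) :
    (I ⊔ Ideal.span {(m : 𝓞 K)}) * (I ⊔ Ideal.span {(n : 𝓞 K)}) = I := by
  have hmem : ((m * n : ℕ) : 𝓞 K) ∈ I := hI ▸ Ideal.absNorm_mem I
  apply le_antisymm
  · rw [Ideal.sup_mul, Ideal.mul_sup, Ideal.mul_sup]
    refine sup_le (sup_le Ideal.mul_le_left Ideal.mul_le_left) (sup_le Ideal.mul_le_right ?_)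
    rw [Ideal.span_singleton_mul_span_singleton]
    rw [Ideal.span_singleton_le_iff_mem]
    exact_mod_cast hmem
  · intro x hx
    have hc : IsCoprime ((m : ℤ)) ((n : ℤ)) := Nat.isCoprime_iff_coprime.mpr hmn
    obtain ⟨a, b, hab⟩ := hc
    have h1 : x = (m : 𝓞 K) * ((a : 𝓞 K) * x) + x * ((b : 𝓞 K) * (n : 𝓞 K)) := by
      have := congrArg (fun z : ℤ => (z : 𝓞 K) * x) hab
      push_cast at this
      linear_combination -this
    rw [h1]
    refine Ideal.add_mem _ (Ideal.mul_mem_mul (Ideal.mem_sup_right (Ideal.mem_span_singleton_self _))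
      (Ideal.mem_sup_left (Ideal.mul_mem_left _ _ hx))) (Ideal.mul_mem_mul (Ideal.mem_sup_left hx)
      (Ideal.mem_sup_right (Ideal.mul_mem_left _ _ (Ideal.mem_span_singleton_self _))))

theorem absNorm_span_natCast (m : ℕ) :
    absNorm (Ideal.span {(m : 𝓞 K)}) = m ^ Module.finrank ℤ (𝓞 K) := by
  rw [Ideal.absNorm_span_singleton]
  have : (m : 𝓞 K) = algebraMap ℤ (𝓞 K) (m : ℤ) := by simp
  rw [this, Algebra.norm_algebraMap, Int.natAbs_pow, Int.natAbs_natCast]

theorem absNorm_sup_span {m n : ℕ} (hmn : m.Coprime n) {I : Ideal (𝓞 K)}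
    (hI : absNorm I = m * n) :
    absNorm (I ⊔ Ideal.span {(m : 𝓞 K)}) = m ∧ absNorm (I ⊔ Ideal.span {(n : 𝓞 K)}) = n := by
  have h := congrArg absNorm (sup_span_mul_sup_span hmn hI)
  rw [map_mul, hI] at h
  have hm : absNorm (I ⊔ Ideal.span {(m : 𝓞 K)}) ∣ m ^ Module.finrank ℤ (𝓞 K) := by
    rw [← absNorm_span_natCast]
    exact Ideal.absNorm_dvd_absNorm_of_le le_sup_right
  have hn : absNorm (I ⊔ Ideal.span {(n : 𝓞 K)}) ∣ n ^ Module.finrank ℤ (𝓞 K) := by
    rw [← absNorm_span_natCast]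
    exact Ideal.absNorm_dvd_absNorm_of_le le_sup_right
  set x := absNorm (I ⊔ Ideal.span {(m : 𝓞 K)})
  set y := absNorm (I ⊔ Ideal.span {(n : 𝓞 K)})
  have hxn : x.Coprime n := Nat.Coprime.coprime_dvd_left hm (Nat.Coprime.pow_left _ hmn)
  have hym : y.Coprime m := Nat.Coprime.coprime_dvd_left hn (Nat.Coprime.pow_left _ hmn.symm)
  have hxm : x ∣ m := hxn.dvd_of_dvd_mul_right (h ▸ dvd_mul_right x y)
  have hmx : m ∣ x := hym.symm.dvd_of_dvd_mul_right (h ▸ dvd_mul_right m n)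
  have hyn : y ∣ n := hym.dvd_of_dvd_mul_left (h ▸ dvd_mul_left y x)
  have hny : n ∣ y := hxn.symm.dvd_of_dvd_mul_left (h ▸ dvd_mul_left n m)
  exact ⟨Nat.dvd_antisymm hxm hmx, Nat.dvd_antisymm hyn hny⟩

/-- The bijection behind multiplicativity of the ideal counting function. -/
noncomputable def idealsEquiv {m n : ℕ} (hmn : m.Coprime n) :
    {I : Ideal (𝓞 K) // absNorm I = m * n} ≃
      {I : Ideal (𝓞 K) // absNorm I = m} × {I : Ideal (𝓞 K) // absNorm I = n} where
  toFun I := (⟨I.1 ⊔ Ideal.span {(m : 𝓞 K)}, (absNorm_sup_span hmn I.2).1⟩,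
    ⟨I.1 ⊔ Ideal.span {(n : 𝓞 K)}, (absNorm_sup_span hmn I.2).2⟩)
  invFun P := ⟨P.1.1 * P.2.1, by rw [map_mul, P.1.2, P.2.2]⟩
  left_inv I := Subtype.ext (sup_span_mul_sup_span hmn I.2)
  right_inv P := by
    refine Prod.ext (Subtype.ext ?_) (Subtype.ext ?_)
    · exact mul_sup_span_eq hmn P.1.2 P.2.2
    · show P.1.1 * P.2.1 ⊔ Ideal.span {(n : 𝓞 K)} = P.2.1
      rw [mul_comm]
      exact mul_sup_span_eq hmn.symm P.2.2 P.1.2

end mult

theorem idealCount_mul {m n : ℕ} (hmn : m.Coprime n) :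
    idealCount K (m * n) = idealCount K m * idealCount K n := by
  rw [idealCount, Nat.card_congr (idealsEquiv hmn), Nat.card_prod]
  rfl

open UniqueFactorizationMonoid

theorem normalizedFactors_card_le {ℓ e : ℕ} (hℓ : ℓ.Prime) {I : Ideal (𝓞 K)}
    (hI : absNorm I = ℓ ^ e) : (normalizedFactors I).card ≤ e := by
  have hI0 : I ≠ 0 := by
    rintro rfl
    have : absNorm (0 : Ideal (𝓞 K)) = 0 := by simp
    rw [this] at hI
    exact pow_ne_zero e hℓ.ne_zero hI.symm
  have hprod : (normalizedFactors I).prod = I :=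
    associated_iff_eq.mp (prod_normalizedFactors hI0)
  have h1 : ((normalizedFactors I).map absNorm).prod = ℓ ^ e := by
    rw [← map_multiset_prod, hprod, hI]
  have h2 : ∀ x ∈ (normalizedFactors I).map absNorm, ℓ ≤ x := by
    intro x hx
    obtain ⟨P, hP, rfl⟩ := Multiset.mem_map.mp hx
    have hd : absNorm P ∣ ℓ ^ e := by
      rw [← hI]
      exact map_dvd absNorm (dvd_of_mem_normalizedFactors hP)
    obtain ⟨k, hk, hk'⟩ := (Nat.dvd_prime_pow hℓ).mp hd
    rw [hk']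
    have hk0 : k ≠ 0 := by
      rintro rfl
      rw [pow_zero, Ideal.absNorm_eq_one_iff] at hk'
      exact (prime_of_normalized_factor P hP).not_isUnit (by rw [hk', ← Ideal.one_eq_top]; exact isUnit_one)
    calc ℓ = ℓ ^ 1 := (pow_one _).symm
      _ ≤ ℓ ^ k := Nat.pow_le_pow_right hℓ.pos (Nat.one_le_iff_ne_zero.mpr hk0)
  have h3 := Multiset.pow_card_le_prod h2
  rw [h1, Multiset.card_map] at h3
  exact (Nat.pow_le_pow_iff_right hℓ.one_lt).mp h3

theorem mem_primesOver_of_mem_normalizedFactors {ℓ e : ℕ} (hℓ : ℓ.Prime) {I : Ideal (𝓞 K)}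
    (hI : absNorm I = ℓ ^ e) {P : Ideal (𝓞 K)} (hP : P ∈ normalizedFactors I) :
    P ∈ (Ideal.span {(ℓ : ℤ)}).primesOver (𝓞 K) := by
  have hprime : P.IsPrime := Ideal.isPrime_of_prime (prime_of_normalized_factor P hP)
  have hd : absNorm P ∣ ℓ ^ e := by
    rw [← hI]
    exact map_dvd absNorm (dvd_of_mem_normalizedFactors hP)
  have hmem : ((ℓ ^ e : ℕ) : 𝓞 K) ∈ P := by
    obtain ⟨c, hc⟩ := hd
    rw [hc]
    push_cast
    exact P.mul_mem_right _ (Ideal.absNorm_mem P)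
  have hℓP : (ℓ : 𝓞 K) ∈ P := by
    push_cast at hmem
    exact hprime.mem_of_pow_mem _ hmem
  refine ⟨hprime, ⟨?_⟩⟩
  have hmax : (Ideal.span {(ℓ : ℤ)}).IsMaximal :=
    have : Fact ℓ.Prime := ⟨hℓ⟩
    Int.ideal_span_isMaximal_of_prime ℓ
  refine (hmax.eq_of_le ?_ ?_)
  · exact (hprime.under ℤ).ne_top
  · rw [Ideal.span_singleton_le_iff_mem, Ideal.mem_under]
    simpa using hℓP

theorem idealCount_prime_pow_le {ℓ : ℕ} (hℓ : ℓ.Prime) (e : ℕ) :
    idealCount K (ℓ ^ e) ≤ (e + 1) ^ Module.finrank ℚ K := by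
  classical
  have : Fact ℓ.Prime := ⟨hℓ⟩
  have hmax : (Ideal.span {(ℓ : ℤ)}).IsMaximal := Int.ideal_span_isMaximal_of_prime ℓ
  have hp0 : (Ideal.span {(ℓ : ℤ)}) ≠ ⊥ := by
    rw [Ne, Ideal.span_singleton_eq_bot]
    exact_mod_cast hℓ.ne_zero
  let T := IsDedekindDomain.primesOverFinset (Ideal.span {(ℓ : ℤ)}) (𝓞 K)
  have hT : T.card ≤ Module.finrank ℚ K :=
    Ideal.card_primesOverFinset_le_finrank (𝓞 K) ℚ K hp0
  let f : {I : Ideal (𝓞 K) // absNorm I = ℓ ^ e} → (T → Fin (e + 1)) := fun I P =>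
    ⟨(normalizedFactors I.1).count P.1, Nat.lt_succ_of_le
      ((Multiset.count_le_card _ _).trans (normalizedFactors_card_le K hℓ I.2))⟩
  have hf : Function.Injective f := by
    intro I J h
    have hne : ∀ I : {I : Ideal (𝓞 K) // absNorm I = ℓ ^ e}, I.1 ≠ 0 := by
      rintro ⟨I, hI⟩ (rfl : I = 0)
      have : absNorm (0 : Ideal (𝓞 K)) = 0 := by simp
      rw [this] at hI
      exact pow_ne_zero e hℓ.ne_zero hI.symm
    have hprod : ∀ I : {I : Ideal (𝓞 K) // absNorm I = ℓ ^ e},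
        (normalizedFactors I.1).prod = I.1 := fun I =>
      associated_iff_eq.mp (prod_normalizedFactors (hne I))
    have hnf : normalizedFactors I.1 = normalizedFactors J.1 := by
      ext P
      by_cases hP : P ∈ T
      · have := congrArg Fin.val (congrFun h ⟨P, hP⟩)
        exact this
      · have h0 : ∀ I : {I : Ideal (𝓞 K) // absNorm I = ℓ ^ e},
            (normalizedFactors I.1).count P = 0 := by
          intro I
          rw [Multiset.count_eq_zero]
          intro hmem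
          exact hP ((IsDedekindDomain.mem_primesOverFinset_iff hp0 _).mpr
            (mem_primesOver_of_mem_normalizedFactors K hℓ I.2 hmem))
        rw [h0, h0]
    apply Subtype.ext
    rw [← hprod I, ← hprod J, hnf]
  calc idealCount K (ℓ ^ e) ≤ Nat.card (T → Fin (e + 1)) := Nat.card_le_card_of_injective f hf
    _ = (e + 1) ^ T.card := by simp
    _ ≤ (e + 1) ^ Module.finrank ℚ K := Nat.pow_le_pow_right (Nat.succ_pos e) hT

end Fermat.Agent.FrobDensity
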